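import Fermat.Agent.S36.E.OfVal
import Fermat.Agent.S36.Norm.Tools.OverLe
import Fermat.Agent.S36.StepA.Near

/-!
# S36/Geo/SepDeg/Abs : abstract lemmas for the big components

* `ValOver_eq_of_le`, `ValOver_exists_not_mem` : a valuation ring over `A` in which every function can be scaled to a unit is maximal among the
  valuation rings over `A`; hence two distinct such rings are incomparable;
* `card_le_finrankAlong` : a family of pairwise distinct embeddings of `L` which agree on `θ E0` has at most `[L : θ E0]` elements;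
* `finiteAlong_resMap` : the residue extension of a finite extension is finite;
* `GEmb.ser` : the residue field of a series embedding, embedded in `k((t))`; `Red.add`, `Red.sub`.
-/

set_option autoImplicit false
set_option linter.style.haveILetI false

noncomputable section

namespace Fermat.Agent.S36.Geo

open AlgebraicCurve Fermat.Agent.S24 Fermat.Agent.GAL Fermat.Agent.GAL.RED Fermat.Agent.GAL.Gauss Fermat.Agent.DR.Abs
  Fermat.Agent.S36.Val Fermat.Agent.S36.Norm Fermat.Agent.S36.StepA Fermat.Agent.S36.E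

section A1

variable {K F : Type*} [Field K] [Field F] [Algebra K F] {A : ValuationSubring K}

/-- **(A1)** a valuation ring over `A` with scales is maximal among the valuation rings over `A`. -/
theorem ValOver_eq_of_le (V V' : ValOver A F)
    (hsc : ∀ w : F, w ≠ 0 → ∃ a : K, a ≠ 0 ∧ V.redData.red (a • w) ≠ 0) (hle : V.O ≤ V'.O) :
    V.O = V'.O := by
  refine le_antisymm hle fun t ht => ?_
  by_cases ht0 : t = 0
  · subst ht0
    exact V.O.zero_mem
  obtain ⟨a, ha0, ha⟩ := hsc t ht0
  obtain ⟨-, hu, hu'⟩ := V.redData.red_ne_zero_iff.1 ha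
  have haF : algebraMap K F a ≠ 0 := (_root_.map_ne_zero _).2 ha0
  have h1 : algebraMap K F a⁻¹ ∈ V'.O := by
    have : algebraMap K F a⁻¹ = t * (a • t)⁻¹ := by
      rw [Algebra.smul_def, mul_inv, map_inv₀]
      field_simp
    rw [this]
    exact V'.O.mul_mem _ _ ht (hle hu')
  have h2 : a⁻¹ ∈ A := V'.algebraMap_mem_iff.1 h1
  have h3 : t = algebraMap K F a⁻¹ * (a • t) := by
    rw [Algebra.smul_def, map_inv₀]
    field_simp
  rw [h3]
  exact V.O.mul_mem _ _ (V.algebraMap_mem h2) hu

/-- **(A1')** distinct rings with scales are incomparable. -/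
theorem ValOver_exists_not_mem (V V' : ValOver A F)
    (hsc : ∀ w : F, w ≠ 0 → ∃ a : K, a ≠ 0 ∧ V.redData.red (a • w) ≠ 0) (hne : V.O ≠ V'.O) :
    ∃ t ∈ V.O, t ∉ V'.O := by
  by_contra hcon
  push Not at hcon
  exact hne (ValOver_eq_of_le V V' hsc hcon)

end A1

section A2

/-- **(A2)** pairwise distinct embeddings which agree on `θ E0`. -/
theorem card_le_finrankAlong {k E0 L Ω : Type*} [Field k] [Field E0] [Field L] [Field Ω]
    [Algebra k E0] [Algebra k L] [Algebra k Ω] (θ : E0 →ₐ[k] L) (hfin : FiniteAlong k θ)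
    {Z : Type*} [Fintype Z] (ε : Z → (L →ₐ[k] Ω)) (hinj : Function.Injective ε)
    (hθ : ∀ z z' e, ε z (θ e) = ε z' (θ e)) : Fintype.card Z ≤ finrankAlong k θ := by
  classical
  by_cases hZ : IsEmpty Z
  · rw [Fintype.card_eq_zero]
    exact Nat.zero_le _
  rw [not_isEmpty_iff] at hZ
  obtain ⟨z0⟩ := hZ
  letI := algebraAlong θ
  letI : Algebra E0 Ω := ((ε z0).comp θ).toRingHom.toAlgebra
  haveI : Module.Finite E0 L := hfin
  let f : Z → (L →ₐ[E0] Ω) := fun z =>
    { (ε z : L →+* Ω) with commutes' := fun e => hθ z z0 e }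
  have hf : Function.Injective f := by
    intro z z' h
    apply hinj
    ext x
    exact congrArg (fun g : L →ₐ[E0] Ω => g x) h
  have h1 := Nat.card_le_card_of_injective f hf
  rw [Nat.card_eq_fintype_card] at h1
  exact h1.trans (card_algHom_le_finrank E0 L Ω)

end A2

section A3

variable {K F F1 k Fb Fb1 : Type*} [Field K] [Field F] [Algebra K F] [Field F1] [Algebra K F1]
  [Field k] [Field Fb] [Algebra k Fb] [Field Fb1] [Algebra k Fb1]

/-- a single reduction, as a family. -/
def singleRed (R : RedData K F k Fb) : MultiRed K F k (fun _ : Unit => Fb) where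
  R _ := R
  A := R.A
  redA := R.redA
  A_eq _ := rfl
  redA_eq _ _ := rfl
  redA_surj c := by
    obtain ⟨a, rfl⟩ := R.resA_surjective c
    exact ⟨a, a.2, R.redA_of_mem a.2⟩

theorem singleRed_sep (R : RedData K F k Fb) : (singleRed R).Sep := by
  intro u c hc
  obtain ⟨g, hg, hgu⟩ := R.exists_lift (u ())
  refine ⟨(c ())⁻¹ • g, fun i => ?_⟩
  cases i
  rw [smul_smul, mul_inv_cancel₀ (hc ()), one_smul]
  exact ⟨hg, hgu⟩

/-- **(A3)** the residue extension of a finite extension is finite. -/
theorem finiteAlong_resMap {R1 : RedData K F1 k Fb1} {R : RedData K F k Fb} (u : F1 →ₐ[K] F)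
    (hfin : FiniteAlong K u) (h : RedHom R1 R (u : F1 →+* F)) : FiniteAlong k h.resMap := by
  letI := algebraAlong u
  haveI := isScalarTower_along u
  haveI : FiniteDimensional F1 F := hfin
  letI : Algebra Fb1 Fb := algebraAlong h.resMap
  exact finite_of_sep (Fb := fun _ : Unit => Fb) (R1 := R1) (T := singleRed R) (singleRed_sep R)
    (fun _ y hy => (h.mem_iff y).2 hy) (fun _ y hy => (h.resMap_red hy).symm) ()

end A3

section Ser

variable {A : ValuationSubring Kbar} {F : Type} [Field F] [Algebra Kbar F] (G : GEmb A F)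

theorem Red.add' {s t : LaurentSeries Kbar} {r r' : LaurentSeries (IsLocalRing.ResidueField ↥A)}
    (hs : Red A s r) (ht : Red A t r') : Red A (s + t) (r + r') := by
  obtain ⟨h, rfl⟩ := hs
  obtain ⟨h', rfl⟩ := ht
  refine ⟨add_mem h h', ?_⟩
  rw [← map_add]
  exact congrArg _ (Subtype.ext rfl)

theorem Red.neg' {s : LaurentSeries Kbar} {r : LaurentSeries (IsLocalRing.ResidueField ↥A)}
    (hs : Red A s r) : Red A (-s) (-r) := by
  obtain ⟨h, rfl⟩ := hs
  refine ⟨neg_mem h, ?_⟩
  rw [← map_neg]
  exact congrArg _ (Subtype.ext rfl)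

theorem Red.sub' {s t : LaurentSeries Kbar} {r r' : LaurentSeries (IsLocalRing.ResidueField ↥A)}
    (hs : Red A s r) (ht : Red A t r') : Red A (s - t) (r - r') := by
  rw [sub_eq_add_neg, sub_eq_add_neg]
  exact Red.add' hs (Red.neg' ht)

/-- The honest residue field of a series embedding, embedded in `k((t))`. -/
def GEmb.ser : G.toValOver.Res →ₐ[IsLocalRing.ResidueField ↥A]
    LaurentSeries (IsLocalRing.ResidueField ↥A) :=
  G.Fb.val.comp (G.resEquiv : G.toValOver.Res →ₐ[IsLocalRing.ResidueField ↥A] ↥G.Fb)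

theorem GEmb.ser_injective : Function.Injective G.ser := G.ser.toRingHom.injective

theorem GEmb.mem_of_red {x : F} {r : LaurentSeries (IsLocalRing.ResidueField ↥A)}
    (h : Red A (G.φ x) r) : x ∈ G.O := h.1

theorem GEmb.ser_red {x : F} {r : LaurentSeries (IsLocalRing.ResidueField ↥A)}
    (h : Red A (G.φ x) r) : G.ser (G.toValOver.redData.red x) = r := by
  obtain ⟨h1, rfl⟩ := h
  show ((G.resEquiv (G.toValOver.redData.red x) : ↥G.Fb) :
    LaurentSeries (IsLocalRing.ResidueField ↥A)) = _
  rw [resEquiv_red, G.coe_red x h1]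

theorem GEmb.exists_red {x : F} (hx : x ∈ G.O) :
    ∃ r : LaurentSeries (IsLocalRing.ResidueField ↥A), Red A (G.φ x) r := ⟨_, hx, rfl⟩

/-- two series embeddings with a function which is small for one of them and a unit for the other one have distinct valuation rings. -/
theorem GEmb.O_ne_of_red (G G' : GEmb A F) (x : F) (h : Red A (G.φ x) 0)
    {r : LaurentSeries (IsLocalRing.ResidueField ↥A)} (h' : Red A (G'.φ x) r) (hr : r ≠ 0) :
    G.O ≠ G'.O := by
  intro hO
  have hx0 : G'.φ x ≠ 0 := h'.ne_zero hr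
  have hx : x ≠ 0 := fun h0 => hx0 (by rw [h0, map_zero])
  have h1 : x⁻¹ ∈ G'.O := by
    have := (h'.inv hr).1
    rwa [← map_inv₀] at this
  rw [← hO] at h1
  obtain ⟨r', hr'⟩ := G.exists_red h1
  have h2 := h.mul hr'
  rw [← map_mul, mul_inv_cancel₀ hx, map_one, zero_mul] at h2
  exact one_ne_zero (Red.one.unique h2)

end Ser

end Fermat.Agent.S36.Geo
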