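import Fermat.Agent.S36.Geo.SepDeg.Inc
import Fermat.Agent.S36.StepA.Tame

/-!
# S36/Geo/SepDeg/Cyc : the middle expansions attached to distinct roots of unity have distinct reductions  (series part of block (B5))

Test element `T = (hi j - lo j) / (ζ₀ - 1)`; `ι_η T = (j(η t) - j(t)) / (ζ₀ - 1)` has coefficients `c_n (η^n - 1) / (ζ₀ - 1) ∈ A`; the coefficient of `t⁻¹` is
`(η⁻¹ - 1) / (ζ₀ - 1)`, and `(η⁻¹ - η'⁻¹) / (ζ₀ - 1)` is a unit of `A` for `η ≠ η'` (cyclotomic units).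
-/

set_option autoImplicit false
set_option linter.unusedSectionVars false

noncomputable section

namespace Fermat.Agent.S36.Geo

open ModularCurve AlgebraicCurve Fermat.Agent.S24 Fermat.Agent.GAL Fermat.Agent.GAL.Gauss
  Fermat.Agent.GAL.RED Fermat.Agent.GAL.NormFormula Fermat.Agent.S36.StepA Fermat.Agent.S36.Kron
  Fermat.Agent.S36.Norm Fermat.Agent.DR.Conc

/-- **(C1)** `(η - 1) / (ζ - 1) ∈ A` for `ζ` a primitive `q`-th root of unity, `η ^ q = 1`.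
PROOF. `hζ.eq_pow_of_pow_eq_one hη : ∃ i < q, ζ ^ i = η`; `mul_geom_sum : (x - 1) * ∑ i ∈ range n, x ^ i = x ^ n - 1`; `ζ - 1 ≠ 0` (`hζ.ne_one`); `ζ ∈ A` (`Normalise_zeta_mem`), `sum_mem`, `pow_mem`. -/
theorem cyc_div_mem (A : ValuationSubring Kbar) {q : ℕ} (hq : 1 < q) {ζ η : Kbar}
    (hζ : IsPrimitiveRoot ζ q) (hη : η ^ q = 1) : (η - 1) / (ζ - 1) ∈ A := by
  have : NeZero q := ⟨by omega⟩
  obtain ⟨i, -, rfl⟩ := hζ.eq_pow_of_pow_eq_one hη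
  have h1 : ζ - 1 ≠ 0 := sub_ne_zero.2 (hζ.ne_one hq)
  have hζA : ζ ∈ A := (Normalise_zeta_mem A (by omega : 0 < q) hζ.pow_eq_one).1
  rw [← mul_geom_sum, mul_div_cancel_left₀ _ h1]
  exact sum_mem fun j _ => pow_mem hζA j

/-- **(C2)** two elements of `A` whose difference is a unit have distinct residues. -/
theorem residue_ne_of_inv_mem {K : Type*} [Field K] {A : ValuationSubring K} {a b : K} (ha : a ∈ A)
    (hb : b ∈ A) (hne : a ≠ b) (hinv : (a - b)⁻¹ ∈ A) :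
    IsLocalRing.residue ↥A ⟨a, ha⟩ ≠ IsLocalRing.residue ↥A ⟨b, hb⟩ := by
  intro h
  have h1 : IsLocalRing.residue ↥A (⟨a, ha⟩ - ⟨b, hb⟩) = 0 := by rw [map_sub, h, sub_self]
  rw [IsLocalRing.residue_eq_zero_iff] at h1
  have h2 : IsUnit ((⟨a, ha⟩ - ⟨b, hb⟩ : ↥A)) := by
    refine IsUnit.of_mul_eq_one ⟨(a - b)⁻¹, hinv⟩ ?_
    apply Subtype.ext
    exact mul_inv_cancel₀ (sub_ne_zero.2 hne)
  exact (IsLocalRing.mem_maximalIdeal _).1 h1 h2

/-- **(C3)** a series with coefficients in `A` is Gauss integral and reduces coefficientwise (`StepA.liftA`, `iA_liftA`, `red_iA`, `pA_coeff`). -/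
theorem red_of_coeff_mem {A : ValuationSubring Kbar} (s : LaurentSeries Kbar)
    (h : ∀ n, s.coeff n ∈ A) :
    ∃ r : LaurentSeries (IsLocalRing.ResidueField ↥A), Red A s r ∧
      ∀ n, r.coeff n = IsLocalRing.residue ↥A ⟨s.coeff n, h n⟩ := by
  refine ⟨pA A (liftA s h), ?_, fun n => rfl⟩
  have h1 := red_iA (A := A) (liftA s h)
  rwa [iA_liftA] at h1

variable (S : Setup)

/-- **(C4)** the middle expansions attached to distinct roots of unity have distinct reductions.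
PROOF. `ζ₀ := η.1`, `c := (ζ₀ - 1)⁻¹`, `T := c • (hi j - lo j)`, `j = jF S.M`.  For a root `ξ`: `(S.embMid ξ).φ T = HahnSeries.C c * (twist ξ js - js)`, `js = (j : LaurentSeries Kbar)` (`Algebra.smul_def`, `map_mul`,
`GEmb.φ_algebraMap`, `map_sub`, `embMid_hi`, `embMid_lo`); `js = iA S.A (jqModC ↥S.A)` (as in the proof of `DR.Conc.RM_red_jF`: `iA_jqModC`, `Igusa.LevelDeg_coeffEmb_jq`), so `js.coeff n ∈ S.A`; coefficient `n`:
`c * (ξ ^ n * js.coeff n - js.coeff n) = ((ξ ^ n - 1) / (ζ₀ - 1)) * js.coeff n ∈ A` by (C1) applied to `ξ ^ n` (`twist_coeff`, `HahnSeries.C_mul_eq_smul`/`HahnSeries.coeff_smul`; `(ξ ^ n) ^ q = 1`: `zpow` lemmas).  (C3) gives `r`, `r'`.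
Coefficient `-1`: `js.coeff (-1) = 1` (`coeff_jK_neg_one` or `coeff_jqModC_neg_one`).  The difference of the two coefficients is `(η⁻¹ - η'⁻¹) / (ζ₀ - 1) ≠ 0`, with inverse
`(ζ₀ - 1) / (η⁻¹ - η'⁻¹) = η' * ((ζ₀ - 1) / (ξ - 1))`, `ξ := η' * η⁻¹`, a primitive `q`-th root of unity (`ξ ^ q = 1`, `ξ ≠ 1`, `q` prime: `orderOf_eq_prime`, `IsPrimitiveRoot.orderOf`), in `A` by (C1).  Conclude by (C2). -/
theorem exists_red_ne (η η' : S.Roots) (hne : η ≠ η') :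
    ∃ (T : S.F2) (r r' : LaurentSeries S.k), Red S.A ((S.embMid η).φ T) r ∧
      Red S.A ((S.embMid η').φ T) r' ∧ r ≠ r' := by
  have hq := S.hq
  have hFq : Fact S.q.Prime := ⟨hq⟩
  have hη1 : η.1 - 1 ≠ 0 := sub_ne_zero.mpr (η.2.ne_one hq.one_lt)
  have hη0 : η.1 ≠ 0 := η.2.ne_zero hq.ne_zero
  have hη'0 : η'.1 ≠ 0 := η'.2.ne_zero hq.ne_zero
  have hd : η'.1 - η.1 ≠ 0 := sub_ne_zero.mpr (fun h => hne (Subtype.ext h.symm))
  have hz : ((jF S.M : FN S.M) : LaurentSeries Kbar) = iA S.A (jqModC ↥S.A) := by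
    rw [iA_jqModC]
    exact Igusa.LevelDeg_coeffEmb_jq
  have hjsA : ∀ n, ((jF S.M : FN S.M) : LaurentSeries Kbar).coeff n ∈ S.A := by
    intro n
    rw [hz, iA_coeff]
    exact ((jqModC ↥S.A).coeff n).2
  have hjs1 : ((jF S.M : FN S.M) : LaurentSeries Kbar).coeff (-1) = 1 := by
    rw [hz, iA_jqModC]
    exact coeff_jqModC_neg_one Kbar
  have hcoef : ∀ (ξ : S.Roots) (n : ℤ),
      ((S.embMid ξ).φ ((η.1 - 1)⁻¹ • (hi S.M S.q (jF S.M) - lo S.M S.q (jF S.M)))).coeff n =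
        (η.1 - 1)⁻¹ * (ξ.1 ^ n * ((jF S.M : FN S.M) : LaurentSeries Kbar).coeff n
          - ((jF S.M : FN S.M) : LaurentSeries Kbar).coeff n) := by
    intro ξ n
    rw [Algebra.smul_def, map_mul, GEmb.φ_algebraMap, map_sub, embMid_hi, embMid_lo,
      HahnSeries.C_mul_eq_smul, HahnSeries.coeff_smul, HahnSeries.coeff_sub,
      Fermat.Agent.S24.twist_coeff, smul_eq_mul]
  have hmem : ∀ (ξ : S.Roots) (n : ℤ),
      ((S.embMid ξ).φ ((η.1 - 1)⁻¹ • (hi S.M S.q (jF S.M) - lo S.M S.q (jF S.M)))).coeff n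
        ∈ S.A := by
    intro ξ n
    rw [hcoef]
    have h1 : (ξ.1 ^ n) ^ S.q = 1 := by
      rw [← zpow_natCast, ← zpow_mul, mul_comm, zpow_mul, zpow_natCast, ξ.2.pow_eq_one, one_zpow]
    have h2 := cyc_div_mem S.A hq.one_lt η.2 h1
    have h3 : (η.1 - 1)⁻¹ * (ξ.1 ^ n * ((jF S.M : FN S.M) : LaurentSeries Kbar).coeff n
          - ((jF S.M : FN S.M) : LaurentSeries Kbar).coeff n)
        = (ξ.1 ^ n - 1) / (η.1 - 1) * ((jF S.M : FN S.M) : LaurentSeries Kbar).coeff n := by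
      rw [div_eq_mul_inv]
      ring
    rw [h3]
    exact S.A.mul_mem _ _ h2 (hjsA n)
  obtain ⟨r, hr, hrc⟩ := red_of_coeff_mem _ (hmem η)
  obtain ⟨r', hr', hrc'⟩ := red_of_coeff_mem _ (hmem η')
  refine ⟨_, r, r', hr, hr', fun hrr => ?_⟩
  have h1 := hrc (-1)
  rw [hrr, hrc' (-1)] at h1
  have hdiff : ((S.embMid η).φ ((η.1 - 1)⁻¹ • (hi S.M S.q (jF S.M) - lo S.M S.q (jF S.M)))).coeff (-1)
      - ((S.embMid η').φ ((η.1 - 1)⁻¹ • (hi S.M S.q (jF S.M) - lo S.M S.q (jF S.M)))).coeff (-1)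
      = (η'.1 - η.1) / ((η.1 - 1) * η.1 * η'.1) := by
    rw [hcoef, hcoef, hjs1, zpow_neg_one, zpow_neg_one]
    field_simp
    ring
  refine residue_ne_of_inv_mem (hmem η (-1)) (hmem η' (-1)) ?_ ?_ h1.symm
  · intro h
    rw [← sub_eq_zero, hdiff] at h
    exact (div_ne_zero hd (mul_ne_zero (mul_ne_zero hη1 hη0) hη'0)) h
  · rw [hdiff]
    have hξq : (η'.1 * η.1⁻¹) ^ S.q = 1 := by
      rw [mul_pow, inv_pow, η.2.pow_eq_one, η'.2.pow_eq_one, inv_one, mul_one]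
    have hξ1 : η'.1 * η.1⁻¹ ≠ 1 := by
      intro h
      apply hd
      rw [sub_eq_zero]
      field_simp at h
      exact h
    have hξp : IsPrimitiveRoot (η'.1 * η.1⁻¹) S.q := by
      have h2 := IsPrimitiveRoot.orderOf (η'.1 * η.1⁻¹)
      rwa [orderOf_eq_prime hξq hξ1] at h2
    have h3 := cyc_div_mem S.A hq.one_lt hξp η.2.pow_eq_one
    have h4 : ((η'.1 - η.1) / ((η.1 - 1) * η.1 * η'.1))⁻¹
        = η'.1 * ((η.1 - 1) / (η'.1 * η.1⁻¹ - 1)) := by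
      have h5 : η'.1 * η.1⁻¹ - 1 ≠ 0 := sub_ne_zero.mpr hξ1
      have h6 : η'.1 * η.1⁻¹ - 1 = (η'.1 - η.1) / η.1 := by
        field_simp
      rw [h6]
      field_simp
    rw [h4]
    exact S.A.mul_mem _ _ (Normalise_zeta_mem S.A hq.pos η'.2.pow_eq_one).1 h3

end Fermat.Agent.S36.Geo
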