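import Fermat.Agent.S36.Geo.SepDeg.Theta

/-!
# S36/Geo/SepDeg/Inc : the valuation rings of the big components are pairwise distinct  (block (B4))

Witnesses: `hi j - lo j` is small on the middle components, a unit at `∞` and at `0`; `mid j - (lo j) ^ q` is small at `∞`, a unit at `0`.
-/

set_option autoImplicit false
set_option linter.unusedSectionVars false

noncomputable section

namespace Fermat.Agent.S36.Geo

open ModularCurve AlgebraicCurve Fermat.Agent.S24 Fermat.Agent.GAL Fermat.Agent.GAL.Gauss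
  Fermat.Agent.GAL.RED Fermat.Agent.GAL.NormFormula Fermat.Agent.S36.StepA Fermat.Agent.S36.Kron
  Fermat.Agent.S36.Norm Fermat.Agent.DR.Conc

variable (S : Setup)

theorem Red.twist' {A : ValuationSubring Kbar} {q : ℕ} [NeZero q] (hq : q.Prime) (hA : A.LiesOverPrime q)
    {s : LaurentSeries Kbar} {r : LaurentSeries (IsLocalRing.ResidueField ↥A)} (h : Red A s r)
    {ζ : Kbar} (hζ : ζ ^ q = 1) (hζ0 : ζ ≠ 0) : Red A (Fermat.Agent.S24.twist ζ hζ0 s) r := by
  obtain ⟨h', rfl⟩ := h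
  obtain ⟨h1, h2⟩ := Normalise_zeta_mem A hq.pos hζ
  exact ⟨twist_mem_gRing A hζ0 h1 h2 h',
    gRes_twist A hζ0 h1 h2 (Normalise_residue_zeta A q hq hA hζ h1) h'⟩

theorem jqModC_ne_zero' : jqModC S.k ≠ 0 := by
  intro h
  have := coeff_jqModC_neg_one S.k
  rw [h, HahnSeries.coeff_zero] at this
  exact zero_ne_one this

/-- the reduction of `j`. -/
theorem red_jF : Red S.A ((jF S.M : FN S.M) : LaurentSeries Kbar) (jqModC S.k) := by
  have h1 : S.RM.red (jF S.M) = Igusa.jb S.k S.M := RM_red_jF S.A S.M S.hMk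
  have h2 : jF S.M ∈ S.RM.O := by
    apply S.RM.mem_of_red_ne_zero
    rw [h1]
    intro h
    exact jqModC_ne_zero' S (congrArg (fun z : Igusa.E S.k S.M => (z : LaurentSeries S.k)) h)
  have h3 := S.red_RM h2
  rw [h1] at h3
  exact h3

theorem qExpand_sq_sub_ne : qExpand S.k (S.q * S.q) (jqModC S.k) - jqModC S.k ≠ 0 := by
  intro h
  have h1 := congrArg (fun z : LaurentSeries S.k => z.coeff (-1)) h
  simp only [HahnSeries.coeff_sub, HahnSeries.coeff_zero, coeff_jqModC_neg_one] at h1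
  rw [qExpand_coeff_of_not_dvd] at h1
  · simp at h1
  · intro hd
    have h2 : ((S.q * S.q : ℕ) : ℤ) ∣ 1 := (dvd_neg).mp hd
    have h3 : S.q * S.q ∣ 1 := by exact_mod_cast h2
    have h4 := Nat.dvd_one.mp h3
    have := S.hq.two_le
    nlinarith

theorem embMid_ne_embInf (ζ : S.Roots) : (S.embMid ζ).O ≠ S.embInf.O := by
  refine GEmb.O_ne_of_red _ _ (hi S.M S.q (jF S.M) - lo S.M S.q (jF S.M)) ?_ ?_
    (qExpand_sq_sub_ne S)
  · rw [map_sub, embMid_hi, embMid_lo]
    have := Red.sub' (Red.twist' S.hq S.hA (red_jF S) ζ.2.pow_eq_one (ζ.2.ne_zero S.hq.ne_zero))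
      (red_jF S)
    rwa [sub_self] at this
  · rw [map_sub, embInf_hi, embInf_lo]
    exact Red.sub' ((red_jF S).qExpand _) (red_jF S)

theorem embMid_ne_embZero (ζ : S.Roots) : (S.embMid ζ).O ≠ S.embZero.O := by
  refine GEmb.O_ne_of_red _ _ (lo S.M S.q (jF S.M) - hi S.M S.q (jF S.M)) ?_ ?_
    (qExpand_sq_sub_ne S)
  · rw [map_sub, embMid_hi, embMid_lo]
    have := Red.sub' (red_jF S)
      (Red.twist' S.hq S.hA (red_jF S) ζ.2.pow_eq_one (ζ.2.ne_zero S.hq.ne_zero))
    rwa [sub_self] at this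
  · rw [map_sub, embZero_hi, embZero_lo]
    exact Red.sub' ((red_jF S).qExpand _) (red_jF S)

theorem embInf_ne_embZero : S.embInf.O ≠ S.embZero.O := by
  have hpow : ∀ x : LaurentSeries S.k, x ^ S.q = qExpand S.k S.q (coeffMap (frobenius S.k S.q) x) :=
    Hecke.pow_char_eq_qExpand S.k S.q
  refine GEmb.O_ne_of_red _ _ (mid S.M S.q (jF S.M) - lo S.M S.q (jF S.M) ^ S.q) ?_
    (r := qExpand S.k S.q (jqModC S.k) - (qExpand S.k (S.q * S.q) (jqModC S.k)) ^ S.q) ?_ ?_
  · rw [map_sub, map_pow, embInf_mid, embInf_lo]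
    have := Red.sub' ((red_jF S).qExpand S.q) ((red_jF S).pow S.q)
    rwa [hpow, coeffMap_jqModC, sub_self] at this
  · rw [map_sub, map_pow, embZero_mid, embZero_lo]
    exact Red.sub' ((red_jF S).qExpand _) (((red_jF S).qExpand _).pow _)
  · intro h
    have h1 := congrArg (fun z : LaurentSeries S.k => z.coeff ((S.q : ℤ) * (-1))) h
    simp only [HahnSeries.coeff_sub, HahnSeries.coeff_zero] at h1
    rw [hpow, qExpand_coeff_mul, qExpand_coeff_mul, coeff_jqModC_neg_one, coeffMap_qExpand,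
      qExpand_coeff_of_not_dvd] at h1
    · simp at h1
    · intro hd
      have h2 : ((S.q * S.q : ℕ) : ℤ) ∣ 1 := (dvd_neg).mp hd
      have h3 : S.q * S.q ∣ 1 := by exact_mod_cast h2
      have h4 := Nat.dvd_one.mp h3
      have := S.hq.two_le
      nlinarith

end Fermat.Agent.S36.Geo
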