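import Fermat.Agent.S36.Geo.SepDeg.Sum
import Fermat.Agent.S36.Nodal.Conc

/-!
# S36/Geo/SepDeg/Main : `∃ θ, Nodal.BigFacts C Vhor θ`  (blocks (B1), (B3), (B4), (B5) assembled)
-/

set_option autoImplicit false
set_option linter.unusedSectionVars false
set_option linter.style.haveILetI false

noncomputable section

namespace Fermat.Agent.S36.Geo

open ModularCurve AlgebraicCurve Fermat.Agent.S24 Fermat.Agent.GAL Fermat.Agent.GAL.Gauss
  Fermat.Agent.GAL.RED Fermat.Agent.GAL.NormFormula Fermat.Agent.S36.StepA Fermat.Agent.S36.Kron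
  Fermat.Agent.S36.Norm Fermat.Agent.DR.Conc Fermat.Agent.S36.Val Fermat.Agent.S36.E
  Fermat.Agent.S36.Nodal

/-- a lower bound for a sum over the components. -/
theorem sum_comp_ge {SS J : Type} [Fintype J] [Fintype (Comp SS J)] (f : Comp SS J → ℕ) :
    f .inf + f .zero + ∑ w, f (.mid w) ≤ ∑ i, f i := by
  classical
  let e : Option (Option J) → Comp SS J := fun o =>
    match o with
    | none => .inf
    | some none => .zero
    | some (some w) => .mid w
  have he : Function.Injective e := by
    rintro (_ | _ | a) (_ | _ | b) h <;> simp_all [e]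
  calc f .inf + f .zero + ∑ w, f (.mid w) = ∑ o, f (e o) := by
        rw [Fintype.sum_option, Fintype.sum_option, add_assoc]
    _ = ∑ i ∈ Finset.univ.image e, f i := (Finset.sum_image (fun _ _ _ _ h => he h)).symm
    _ ≤ ∑ i, f i := Finset.sum_le_sum_of_subset (Finset.subset_univ _)

theorem one_le_finrankAlong {k L1 L : Type*} [Field k] [Field L1] [Field L] [Algebra k L1]
    [Algebra k L] (θ : L1 →ₐ[k] L) (h : FiniteAlong k θ) : 1 ≤ finrankAlong k θ := by
  letI := algebraAlong θ
  haveI : Module.Finite L1 L := h
  exact Module.finrank_pos (R := L1) (M := L)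

variable {S : Setup}

theorem GEmb_scales (G : GEmb S.A S.F2) (w : S.F2) (hw : w ≠ 0) :
    ∃ a : Kbar, a ≠ 0 ∧ G.toValOver.redData.red (a • w) ≠ 0 :=
  exists_scale_of_O_eq G G.toValOver.redData rfl hw

theorem GEmb_inc (G G' : GEmb S.A S.F2) (hne : G.O ≠ G'.O) :
    ∃ t ∈ G.toValOver.redData.O, t ∉ G'.toValOver.redData.O :=
  ValOver_exists_not_mem G.toValOver G'.toValOver (GEmb_scales G) hne

theorem embMid_root_ne {w w' : S.MidIdx} (h : w ≠ w') :
    (S.embMid w.root).O ≠ (S.embMid w'.root).O := by
  rw [w.root_spec, w'.root_spec]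
  exact fun h' => h (Subtype.ext h')

variable (C : Coord (RS S)) (Vhor : ↥C.SS → ValOver S.A S.F2)

/-- **the residue maps of the big components.** -/
def stTheta : ∀ i : Comp ↥C.SS S.MidIdx, ¬ IsHor i → (Igusa.E S.k S.M →ₐ[S.k] stFb S Vhor i)
  | .inf, _ => (bigAt_inf S).theta
  | .zero, _ => (bigAt_zero S).theta
  | .mid w, _ => (bigAt_mid S w.root).theta
  | .hor _, h => absurd trivial h

attribute [local instance] algMid

/-- **Block SEPDEG.** -/
theorem bigFacts : BigFacts C Vhor (stTheta C Vhor) where
  scales := by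
    rintro (_ | _ | w | e) hi
    · exact GEmb_scales S.embInf
    · exact GEmb_scales S.embZero
    · exact GEmb_scales (S.embMid w.root)
    · exact absurd trivial hi
  comap := by
    rintro (_ | _ | w | e) hi
    · exact (bigAt_inf S).comap_mid
    · exact (bigAt_zero S).comap_mid
    · exact (bigAt_mid S w.root).comap_mid
    · exact absurd trivial hi
  red := by
    rintro (_ | _ | w | e) hi y hy
    · exact (bigAt_inf S).red_mid hy
    · exact (bigAt_zero S).red_mid hy
    · exact (bigAt_mid S w.root).red_mid hy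
    · exact absurd trivial hi
  inc := by
    rintro (_ | _ | w | e) (_ | _ | w' | e') hi hi' hne
    · exact absurd rfl hne
    · exact GEmb_inc _ _ (embInf_ne_embZero S)
    · exact GEmb_inc _ _ (embMid_ne_embInf S w'.root).symm
    · exact absurd trivial hi'
    · exact GEmb_inc _ _ (embInf_ne_embZero S).symm
    · exact absurd rfl hne
    · exact GEmb_inc _ _ (embMid_ne_embZero S w'.root).symm
    · exact absurd trivial hi'
    · exact GEmb_inc _ _ (embMid_ne_embInf S w.root)
    · exact GEmb_inc _ _ (embMid_ne_embZero S w.root)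
    · exact GEmb_inc _ _ (embMid_root_ne fun h => hne (by rw [h]))
    · exact absurd trivial hi'
    · exact absurd trivial hi
    · exact absurd trivial hi
    · exact absurd trivial hi
    · exact absurd trivial hi
  fin := by
    rintro (_ | _ | w | e) hi
    · exact (bigAt_inf S).finiteAlong_theta
    · exact (bigAt_zero S).finiteAlong_theta
    · exact (bigAt_mid S w.root).finiteAlong_theta
    · exact absurd trivial hi
  sum := by
    classical
    refine le_trans ?_ (sum_comp_ge _)
    have h1 := one_le_finrankAlong _ (bigAt_inf S).finiteAlong_theta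
    have h2 := one_le_finrankAlong _ (bigAt_zero S).finiteAlong_theta
    have h3 := sum_mid_ge S
    have hq := S.hq.two_le
    have e1 : (if hi : IsHor (Comp.inf : Comp ↥C.SS S.MidIdx) then 0
        else finrankAlong S.k (stTheta C Vhor .inf hi)) = finrankAlong S.k (bigAt_inf S).theta :=
      dif_neg (fun h => h)
    have e2 : (if hi : IsHor (Comp.zero : Comp ↥C.SS S.MidIdx) then 0
        else finrankAlong S.k (stTheta C Vhor .zero hi)) = finrankAlong S.k (bigAt_zero S).theta :=
      dif_neg (fun h => h)
    have e3 : ∀ w : S.MidIdx, (if hi : IsHor (Comp.mid w : Comp ↥C.SS S.MidIdx) then 0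
        else finrankAlong S.k (stTheta C Vhor (.mid w) hi)) =
          finrankAlong S.k (bigAt_mid S w.root).theta := fun w => dif_neg (fun h => h)
    rw [e1, e2, Finset.sum_congr rfl fun w _ => e3 w]
    omega

theorem exists_bigFacts : ∃ θ, BigFacts C Vhor θ := ⟨_, bigFacts C Vhor⟩

end Fermat.Agent.S36.Geo
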