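import Fermat.Agent.S36.Geo.SepDeg.Cyc

/-!
# S36/Geo/SepDeg/Sum : `∑_w [Res_w : θ_w E0] ≥ q - 1`  (block (B5))

For `ζ` in the class of `w` (`S.midOf ζ = w`) the residue embeddings `ε_ζ : Res_w → k((t))` are pairwise distinct (`exists_red_ne`) and they all induce the inclusion on `θ_w (E k M)`.
-/

set_option autoImplicit false
set_option linter.unusedSectionVars false

noncomputable section

namespace Fermat.Agent.S36.Geo

open ModularCurve AlgebraicCurve Fermat.Agent.S24 Fermat.Agent.GAL Fermat.Agent.GAL.Gauss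
  Fermat.Agent.GAL.RED Fermat.Agent.GAL.NormFormula Fermat.Agent.S36.StepA Fermat.Agent.S36.Kron
  Fermat.Agent.S36.Norm Fermat.Agent.DR.Conc Fermat.Agent.S36.Val

/-- transport of the series embedding of the residue field to another series embedding with the same valuation ring. -/
theorem exists_ser_of_O_eq {A : ValuationSubring Kbar} {F : Type} [Field F] [Algebra Kbar F]
    (G G' : GEmb A F) (h : G'.O = G.O) :
    ∃ ε : G.toValOver.Res →ₐ[IsLocalRing.ResidueField ↥A] LaurentSeries (IsLocalRing.ResidueField ↥A),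
      ∀ x, ε (G.toValOver.redData.red x) = G'.ser (G'.toValOver.redData.red x) := by
  have key : ∀ V : ValOver A F, V = G.toValOver →
      ∀ f : V.Res →ₐ[IsLocalRing.ResidueField ↥A] LaurentSeries (IsLocalRing.ResidueField ↥A),
      ∃ ε : G.toValOver.Res →ₐ[IsLocalRing.ResidueField ↥A]
          LaurentSeries (IsLocalRing.ResidueField ↥A),
        ∀ x, ε (G.toValOver.redData.red x) = f (V.redData.red x) := by
    rintro V rfl f
    exact ⟨f, fun _ => rfl⟩
  exact key G'.toValOver (ValOver.ext' h) G'.ser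

variable (S : Setup)

open Classical in
/-- the class of `w` has at most `[Res_w : θ_w E0]` elements. -/
theorem card_class_le (w : S.MidIdx) :
    Fintype.card {ζ : S.Roots // S.midOf ζ = w} ≤ finrankAlong S.k (bigAt_mid S w.root).theta := by
  have hO : ∀ z : {ζ : S.Roots // S.midOf ζ = w}, (S.embMid z.1).O = (S.embMid w.root).O := by
    intro z
    rw [w.root_spec]
    exact congrArg (fun v : S.MidIdx => v.1) z.2
  choose ε hε using fun z : {ζ : S.Roots // S.midOf ζ = w} =>
    exists_ser_of_O_eq (S.embMid w.root) (S.embMid z.1) (hO z)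
  have hθ : ∀ z e, ε z ((bigAt_mid S w.root).theta e) = (e : LaurentSeries S.k) := by
    intro z e
    obtain ⟨y, -, rfl⟩ := S.RM.exists_lift e
    rw [(bigAt_mid S w.root).theta_red, hε, ← (bigAt_mid S z.1).theta_red,
      (bigAt_mid S z.1).ser_theta]
  refine card_le_finrankAlong _ (bigAt_mid S w.root).finiteAlong_theta ε ?_
    (fun z z' e => by rw [hθ, hθ])
  intro z z' hzz
  by_contra hne
  obtain ⟨T, r, r', hr, hr', hrr⟩ := exists_red_ne S z.1 z'.1 (fun h => hne (Subtype.ext h))
  apply hrr
  rw [← (S.embMid z.1).ser_red hr, ← (S.embMid z'.1).ser_red hr', ← hε, ← hε, hzz]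

theorem card_roots : Fintype.card S.Roots = S.q - 1 := by
  classical
  obtain ⟨ζ, hζ⟩ : ∃ ζ : Kbar, IsPrimitiveRoot ζ S.q :=
    HasEnoughRootsOfUnity.exists_primitiveRoot Kbar S.q
  rw [Fintype.card_of_subtype (primitiveRoots S.q Kbar) (fun x => mem_primitiveRoots S.hq.pos),
    hζ.card_primitiveRoots, Nat.totient_prime S.hq]

/-- **(B5)** -/
theorem sum_mid_ge : S.q - 1 ≤ ∑ w : S.MidIdx, finrankAlong S.k (bigAt_mid S w.root).theta := by
  classical
  rw [← card_roots S, ← Fintype.card_congr (Equiv.sigmaFiberEquiv S.midOf), Fintype.card_sigma]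
  exact Finset.sum_le_sum fun w _ => by
    convert card_class_le S w

end Fermat.Agent.S36.Geo
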