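import Fermat.Agent.S36.Geo.SepDeg.Abs
import Fermat.Agent.S36.Geo.Big
import Fermat.Agent.S36.Kron.HeckePolyInt

/-!
# S36/Geo/SepDeg/Table : the three copies `lo`, `mid`, `hi` of `FN M` in `FN (M q q)`, expanded at the three kinds of cusps

|          | `lo y`       | `mid y`    | `hi y`       |
| `embInf` | `y(t)`       | `y(t^q)`   | `y(t^(q q))` |
| `embZero`| `y(t^(q q))` | `y(t^q)`   | `y(t)`       |
| `embMid` | `y(t)`       | `y(t^q)`   | `y(ζ t)`     |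
-/

set_option autoImplicit false
set_option linter.unusedSectionVars false

noncomputable section

namespace Fermat.Agent.S36.Geo

open ModularCurve AlgebraicCurve Fermat.Agent.S24 Fermat.Agent.GAL Fermat.Agent.GAL.Gauss
  Fermat.Agent.GAL.RED Fermat.Agent.GAL.NormFormula Fermat.Agent.S36.StepA Fermat.Agent.S36.Kron

variable (S : Setup)

theorem embInf_lo (y : FN S.M) : S.embInf.φ (lo S.M S.q y) = (y : LaurentSeries Kbar) :=
  coe_lo (M := S.M) (q := S.q) y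

theorem embInf_mid (y : FN S.M) :
    S.embInf.φ (mid S.M S.q y) = qExpand Kbar S.q (y : LaurentSeries Kbar) :=
  coe_mid (M := S.M) (q := S.q) y

theorem embInf_hi (y : FN S.M) :
    S.embInf.φ (hi S.M S.q y) = qExpand Kbar (S.q * S.q) (y : LaurentSeries Kbar) :=
  coe_hi (M := S.M) (q := S.q) y

theorem W2_lo (y : FN S.M) : S.W2 (lo S.M S.q y) = hi S.M S.q y := by
  show S.W2 (StepA.a2 S.M S.q (heckeAlphaBar Kbar S.M S.q y)) = _
  rw [S.isW2.alpha, wq_a1 S.hq S.hqM]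
  rfl

theorem W2_mid (y : FN S.M) : S.W2 (mid S.M S.q y) = mid S.M S.q y := by
  show S.W2 (StepA.a2 S.M S.q (heckeBetaBar Kbar S.M S.q y)) = _
  rw [S.isW2.alpha, wq_b1 S.hq S.hqM, mid_eq_b2]

theorem W2_hi (y : FN S.M) : S.W2 (hi S.M S.q y) = lo S.M S.q y := by
  show S.W2 (StepA.b2 S.M S.q (heckeBetaBar Kbar S.M S.q y)) = _
  rw [S.isW2.beta, wq_b1 S.hq S.hqM]
  rfl

theorem embZero_lo (y : FN S.M) :
    S.embZero.φ (lo S.M S.q y) = qExpand Kbar (S.q * S.q) (y : LaurentSeries Kbar) := by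
  show ((S.W2 (lo S.M S.q y) : S.F2) : LaurentSeries Kbar) = _
  rw [W2_lo, coe_hi]

theorem embZero_mid (y : FN S.M) :
    S.embZero.φ (mid S.M S.q y) = qExpand Kbar S.q (y : LaurentSeries Kbar) := by
  show ((S.W2 (mid S.M S.q y) : S.F2) : LaurentSeries Kbar) = _
  rw [W2_mid, coe_mid]

theorem embZero_hi (y : FN S.M) : S.embZero.φ (hi S.M S.q y) = (y : LaurentSeries Kbar) := by
  show ((S.W2 (hi S.M S.q y) : S.F2) : LaurentSeries Kbar) = _
  rw [W2_hi, coe_lo]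

theorem embMid_lo (ζ : S.Roots) (y : FN S.M) :
    (S.embMid ζ).φ (lo S.M S.q y) = (y : LaurentSeries Kbar) := by
  show S.iotaMid ζ (StepA.a2 S.M S.q (heckeAlphaBar Kbar S.M S.q y)) = _
  rw [(S.isMid ζ).alpha, coe_heckeAlphaBar]

theorem embMid_mid (ζ : S.Roots) (y : FN S.M) :
    (S.embMid ζ).φ (mid S.M S.q y) = qExpand Kbar S.q (y : LaurentSeries Kbar) := by
  show S.iotaMid ζ (StepA.a2 S.M S.q (heckeBetaBar Kbar S.M S.q y)) = _
  rw [(S.isMid ζ).alpha, coe_heckeBetaBar]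

theorem embMid_hi (ζ : S.Roots) (y : FN S.M) :
    (S.embMid ζ).φ (hi S.M S.q y) =
      Fermat.Agent.S24.twist ζ.1 (ζ.2.ne_zero S.hq.ne_zero) (y : LaurentSeries Kbar) := by
  show S.iotaMid ζ (StepA.b2 S.M S.q (heckeBetaBar Kbar S.M S.q y)) = _
  rw [(S.isMid ζ).beta, wq_b1 S.hq S.hqM, coe_heckeAlphaBar]

theorem finiteAlong_lo : FiniteAlong Kbar (lo S.M S.q) :=
  finiteAlong_comp' _ _ (Hecke.finiteAlong_alpha S.M S.q) (Hecke.finiteAlong_alpha (S.M * S.q) S.q)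

theorem finiteAlong_hi : FiniteAlong Kbar (hi S.M S.q) :=
  finiteAlong_comp' _ _ (Hecke.finiteAlong_beta S.M S.q) (Hecke.finiteAlong_beta (S.M * S.q) S.q)

end Fermat.Agent.S36.Geo
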