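import Fermat.Agent.S36.Geo.SepDeg.Table
import Fermat.Agent.DR.Conc.Frob
import Fermat.Agent.DR.Conc.Level

/-!
# S36/Geo/SepDeg/Theta : the residue maps `θ : E k M → Res` of the big components  (block (B3))

`G : GEmb S.A S.F2` a series embedding, `u : FN M → F2` a copy of the level `M` with `G.φ (u y) = y(t)`, and `G.φ (mid y) = y(t^q)` (`BigAt S G u`).  Then
* `h.redHom : RedHom S.RM G.toValOver.redData u`, `h.theta := resMap : E k M →ₐ[k] G.toValOver.Res`, characterised by `G.ser (h.theta e) = e`;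
* `h.comap_mid : G.O.comap mid = S.RM.O`;
* `h.red_mid : red (mid y) = h.theta (Phi (S.RM.red y))`;
* `h.finiteAlong_theta`.
`bigAt_inf`, `bigAt_zero`, `bigAt_mid`.
-/

set_option autoImplicit false
set_option linter.unusedSectionVars false

noncomputable section

namespace Fermat.Agent.S36.Geo

open ModularCurve AlgebraicCurve Fermat.Agent.S24 Fermat.Agent.GAL Fermat.Agent.GAL.Gauss
  Fermat.Agent.GAL.RED Fermat.Agent.GAL.NormFormula Fermat.Agent.S36.StepA Fermat.Agent.S36.Kron
  Fermat.Agent.S36.Norm Fermat.Agent.DR.Conc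

namespace Setup

variable (S : Setup)

instance sepDegFact : Fact S.q.Prime := ⟨S.hq⟩

instance sepDegCharP : CharP S.k S.q := Hecke.charP_residueField S.A S.hq S.hA

instance sepDegAlgClosed : IsAlgClosed S.k := Igusa.isAlgClosed_residueField S.A

instance sepDegPerfect : PerfectRing S.k S.q := inferInstance

theorem hMk : ((S.M : ℕ) : S.k) ≠ 0 := by
  intro h
  exact S.hqM ((CharP.cast_eq_zero_iff S.k S.q S.M).1 h)

/-- the Gauss reduction of level `M`. -/
abbrev RM : RedData Kbar (FN S.M) S.k (Igusa.E S.k S.M) := DR.Conc.RM S.A S.M S.hMk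

/-- the `k`-linear Frobenius. -/
abbrev Phi : Igusa.E S.k S.M →ₐ[S.k] Igusa.E S.k S.M := DR.Conc.Phi S.k S.M S.q

theorem RM_A : S.RM.A = S.A := gaussRedData'_A S.A S.M S.hMk _ _

theorem RM_redA (a : Kbar) : S.RM.redA a = redAOf S.A a := by
  have key : ∀ (E' : IntermediateField Kbar (LaurentSeries Kbar))
      (hE : E' = modularFunctionFieldFullC Kbar S.M),
      (gaussRedData' S.A S.M S.hMk E' hE).redA a = redAOf S.A a := by
    intro E' hE
    subst hE
    rfl
  exact key _ _

theorem red_RM {y : FN S.M} (hy : y ∈ S.RM.O) :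
    Red S.A (y : LaurentSeries Kbar) ((S.RM.red y : Igusa.E S.k S.M) : LaurentSeries S.k) := by
  have h1 := (mem_RM_O_iff S.A S.M S.hMk y).1 hy
  exact ⟨h1, (coe_RM_red S.A S.M S.hMk y h1).symm⟩

end Setup

variable (S : Setup)

/-- `G` is a big component, `u` the copy of the level `M` on which it is the Gauss valuation in `t`. -/
structure BigAt (G : GEmb S.A S.F2) (u : FN S.M →ₐ[Kbar] S.F2) : Prop where
  u_eq : ∀ y, G.φ (u y) = (y : LaurentSeries Kbar)
  mid_eq : ∀ y, G.φ (mid S.M S.q y) = qExpand Kbar S.q (y : LaurentSeries Kbar)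
  fin : FiniteAlong Kbar u

theorem bigAt_inf : BigAt S S.embInf (lo S.M S.q) := ⟨embInf_lo S, embInf_mid S, finiteAlong_lo S⟩

theorem bigAt_zero : BigAt S S.embZero (hi S.M S.q) :=
  ⟨embZero_hi S, embZero_mid S, finiteAlong_hi S⟩

theorem bigAt_mid (ζ : S.Roots) : BigAt S (S.embMid ζ) (lo S.M S.q) :=
  ⟨embMid_lo S ζ, embMid_mid S ζ, finiteAlong_lo S⟩

namespace BigAt

variable {S} {G : GEmb S.A S.F2} {u : FN S.M →ₐ[Kbar] S.F2} (h : BigAt S G u)

include h

theorem redHom : RedHom S.RM G.toValOver.redData (u : FN S.M →+* S.F2) where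
  comap := by
    ext y
    show G.φ (u y) ∈ gRing S.A ↔ _
    rw [h.u_eq, mem_RM_O_iff]
  const := fun a ha => by
    show G.toValOver.redData.red (u (algebraMap Kbar (FN S.M) a)) = _
    rw [AlgHom.commutes]
    rw [G.toValOver.redData.red_algebraMap', S.RM_redA]
    rfl

/-- **the residue map.** -/
def theta : Igusa.E S.k S.M →ₐ[S.k] G.toValOver.Res := h.redHom.resMap

theorem theta_red (y : FN S.M) : h.theta (S.RM.red y) = G.toValOver.redData.red (u y) :=
  h.redHom.resMap_red' y

/-- the characterisation of `theta`. -/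
theorem ser_theta (e : Igusa.E S.k S.M) : G.ser (h.theta e) = (e : LaurentSeries S.k) := by
  obtain ⟨y, hy, rfl⟩ := S.RM.exists_lift e
  rw [h.theta_red]
  apply G.ser_red
  rw [h.u_eq]
  exact S.red_RM hy

theorem comap_mid : G.O.comap (mid S.M S.q : FN S.M →+* S.F2) = S.RM.O := by
  ext y
  show G.φ (mid S.M S.q y) ∈ gRing S.A ↔ _
  rw [h.mid_eq, mem_RM_O_iff]
  exact ⟨mem_gRing_of_qExpand S.A S.q, qExpand_mem_gRing S.A S.q⟩

theorem red_mid {y : FN S.M} (hy : y ∈ S.RM.O) :
    G.toValOver.redData.red (mid S.M S.q y) = h.theta (S.Phi (S.RM.red y)) := by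
  apply G.ser_injective
  rw [h.ser_theta, coe_Phi]
  apply G.ser_red
  rw [h.mid_eq]
  exact (S.red_RM hy).qExpand S.q

theorem finiteAlong_theta : FiniteAlong S.k h.theta := finiteAlong_resMap u h.fin h.redHom

end BigAt

end Fermat.Agent.S36.Geo
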